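/-
S29lib / block P (helper5).  Eigenform algebra, part 1.

The prelude's `CuspForm.IsNormalizedEigenform` is a statement about `q`-coefficients only
(`a₁ = 1`, multiplicativity on coprime arguments, the prime-power recursions).  Here we prove
that such a form is an honest simultaneous eigenvector of the prelude's Hecke operators
`CuspForm.heckeTLin 2` (`ℓ ∤ N`) and `CuspForm.heckeULin 2` (`q ∣ N`) with eigenvalues
`a_ℓ`, `a_q`, and **multiplicity one**: any cusp form with the same eigenvalues is a multiple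
of `g`.
-/
import Mathlib
import Fermat.Agent.Helper8.QCoeff
import Fermat.Prelude.Def_FLTPrelim_Modularity
import Fermat.Prelude.Def_CuspForm_HeckeAlgebra

set_option autoImplicit false

noncomputable section

namespace Fermat.Agent.S29lib.P

open CuspForm ModularFormClass CongruenceSubgroup Fermat.Agent.Helper8

variable {N : ℕ} {g : CuspForm (Gamma0 N) 2}

/-! ### Coefficient identities -/

/-- `a(ℓ^(r+1)) + ℓ a(ℓ^(r-1)) = a(ℓ) a(ℓ^r)` in the form used below (`ℓ ∤ N`). -/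
theorem qCoeff_pow_rel_good (hg : g.IsNormalizedEigenform) {ℓ : ℕ} (hℓ : ℓ.Prime)
    (hℓN : ¬ ℓ ∣ N) (s : ℕ) :
    qCoeff ⇑g (ℓ ^ (s + 2)) + (ℓ : ℂ) * qCoeff ⇑g (ℓ ^ s) =
      qCoeff ⇑g ℓ * qCoeff ⇑g (ℓ ^ (s + 1)) := by
  rw [hg.qCoeff_prime_pow_of_not_dvd ℓ s hℓ hℓN]
  ring

/-- `a(q^(r+1)) = a(q) a(q^r)` for `q ∣ N`. -/
theorem qCoeff_pow_rel_bad (hg : g.IsNormalizedEigenform) {q : ℕ} (hq : q.Prime)
    (hqN : q ∣ N) (r : ℕ) :
    qCoeff ⇑g (q ^ (r + 1)) = qCoeff ⇑g q * qCoeff ⇑g (q ^ r) := by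
  rcases r with _ | s
  · rw [pow_zero, zero_add, pow_one, hg.qCoeff_one, mul_one]
  · exact hg.qCoeff_prime_pow_of_dvd q s hq hqN

/-- The Hecke relation on coefficients at a good prime. -/
theorem qCoeff_rel_good (hg : g.IsNormalizedEigenform) {ℓ : ℕ} (hℓ : ℓ.Prime)
    (hℓN : ¬ ℓ ∣ N) (n : ℕ) :
    qCoeff ⇑g (n * ℓ) + (if ℓ ∣ n then (ℓ : ℂ) * qCoeff ⇑g (n / ℓ) else 0) =
      qCoeff ⇑g ℓ * qCoeff ⇑g n := by
  rcases Nat.eq_zero_or_pos n with rfl | hn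
  · simp [qCoeff_cusp_zero]
  obtain ⟨r, m, hm, rfl⟩ := Nat.exists_eq_pow_mul_and_not_dvd hn.ne' ℓ hℓ.ne_one
  have hcop : ∀ t : ℕ, (ℓ ^ t).Coprime m :=
    fun t => Nat.Coprime.pow_left t ((Nat.Prime.coprime_iff_not_dvd hℓ).mpr hm)
  have e1 : ℓ ^ r * m * ℓ = ℓ ^ (r + 1) * m := by ring
  rw [e1, hg.qCoeff_mul_of_coprime _ _ (hcop (r + 1)), hg.qCoeff_mul_of_coprime _ _ (hcop r)]
  rcases r with _ | s
  · have hnd : ¬ ℓ ∣ ℓ ^ 0 * m := by simpa using hm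
    rw [if_neg hnd, add_zero, pow_zero, zero_add, pow_one, hg.qCoeff_one]
    ring
  · have hd : ℓ ∣ ℓ ^ (s + 1) * m := Dvd.dvd.mul_right (dvd_pow_self ℓ (Nat.succ_ne_zero s)) m
    have e2 : ℓ ^ (s + 1) * m / ℓ = ℓ ^ s * m := by
      rw [pow_succ, mul_assoc, mul_comm ℓ m, ← mul_assoc]
      exact Nat.mul_div_cancel _ hℓ.pos
    rw [if_pos hd, e2, hg.qCoeff_mul_of_coprime _ _ (hcop s)]
    have h := qCoeff_pow_rel_good hg hℓ hℓN s
    linear_combination (qCoeff ⇑g m) * h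

/-- The Hecke relation on coefficients at a bad prime. -/
theorem qCoeff_rel_bad (hg : g.IsNormalizedEigenform) {q : ℕ} (hq : q.Prime)
    (hqN : q ∣ N) (n : ℕ) :
    qCoeff ⇑g (n * q) = qCoeff ⇑g q * qCoeff ⇑g n := by
  rcases Nat.eq_zero_or_pos n with rfl | hn
  · simp [qCoeff_cusp_zero]
  obtain ⟨r, m, hm, rfl⟩ := Nat.exists_eq_pow_mul_and_not_dvd hn.ne' q hq.ne_one
  have hcop : ∀ t : ℕ, (q ^ t).Coprime m :=
    fun t => Nat.Coprime.pow_left t ((Nat.Prime.coprime_iff_not_dvd hq).mpr hm)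
  have e1 : q ^ r * m * q = q ^ (r + 1) * m := by ring
  rw [e1, hg.qCoeff_mul_of_coprime _ _ (hcop (r + 1)), hg.qCoeff_mul_of_coprime _ _ (hcop r),
    qCoeff_pow_rel_bad hg hq hqN r]
  ring

/-! ### `g` is an eigenvector -/

/-- two cusp forms with the same `q`-coefficients are equal -/
theorem eq_of_qCoeff_eq {k : ℤ} (f h : CuspForm (Gamma0 N) k)
    (H : ∀ n, qCoeff ⇑f n = qCoeff ⇑h n) : f = h := by
  have : f - h = 0 := eq_zero_of_qCoeff_eq_zero _ fun n => by rw [qCoeff_sub, H n, sub_self]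
  exact sub_eq_zero.mp this

/-- **A normalised eigenform is an eigenvector of `T_ℓ`, `ℓ ∤ N`, with eigenvalue `a_ℓ`.** -/
theorem heckeTLin_eq_smul (hg : g.IsNormalizedEigenform) {ℓ : ℕ} (hℓ : ℓ.Prime)
    (hℓN : ¬ ℓ ∣ N) : CuspForm.heckeTLin 2 hℓ hℓN g = qCoeff ⇑g ℓ • g := by
  refine eq_of_qCoeff_eq _ _ fun n => ?_
  rw [qCoeff_heckeTLin, qCoeff_smul, ModularForm.coeffHeckeT_apply, ← qCoeff_rel_good hg hℓ hℓN n]
  have h3 : ((ℓ : ℂ)) ^ ((2 : ℤ) - 1) = (ℓ : ℂ) := by norm_num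
  rw [h3]

/-- **A normalised eigenform is an eigenvector of `U_q`, `q ∣ N`, with eigenvalue `a_q`.** -/
theorem heckeULin_eq_smul [NeZero N] (hg : g.IsNormalizedEigenform) {q : ℕ} (hq : q.Prime)
    (hqN : q ∣ N) : CuspForm.heckeULin 2 hqN g = qCoeff ⇑g q • g := by
  refine eq_of_qCoeff_eq _ _ fun n => ?_
  rw [qCoeff_heckeULin hq, qCoeff_smul, ModularForm.coeffHeckeU_apply, qCoeff_rel_bad hg hq hqN n]

/-! ### Multiplicity one -/

/-- **Multiplicity one**: a cusp form with the Hecke eigenvalues of the normalised eigenform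
`g` (all `T_ℓ`, `ℓ ∤ N`, and all `U_q`, `q ∣ N`) has `q`-coefficients `a₁(h) · a_n(g)`. -/
theorem qCoeff_eq_of_eigen [NeZero N] (hg : g.IsNormalizedEigenform)
    (h : CuspForm (Gamma0 N) 2)
    (hT : ∀ (ℓ : ℕ) (hℓ : ℓ.Prime) (hℓN : ¬ ℓ ∣ N),
      CuspForm.heckeTLin 2 hℓ hℓN h = qCoeff ⇑g ℓ • h)
    (hU : ∀ (q : ℕ) (_ : q.Prime) (hqN : q ∣ N),
      CuspForm.heckeULin 2 hqN h = qCoeff ⇑g q • h) (n : ℕ) :
    qCoeff ⇑h n = qCoeff ⇑h 1 * qCoeff ⇑g n := by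
  induction n using Nat.strong_induction_on with
  | _ n ih =>
  rcases Nat.lt_or_ge n 2 with hn | hn
  · interval_cases n
    · rw [qCoeff_cusp_zero, qCoeff_cusp_zero, mul_zero]
    · rw [hg.qCoeff_one, mul_one]
  · have hn1 : n ≠ 1 := by omega
    have hℓp : n.minFac.Prime := Nat.minFac_prime hn1
    obtain ⟨m, hm⟩ : n.minFac ∣ n := Nat.minFac_dvd n
    set ℓ := n.minFac with hℓdef
    have hmpos : 0 < m := by
      rcases Nat.eq_zero_or_pos m with h0 | h0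
      · rw [h0, mul_zero] at hm; omega
      · exact h0
    have hmlt : m < n := by
      conv_rhs => rw [hm]
      exact lt_mul_of_one_lt_left hmpos hℓp.one_lt
    have hnm : n = m * ℓ := by rw [hm, mul_comm]
    by_cases hℓN : ℓ ∣ N
    · -- bad prime
      have h1 := congrArg (fun v : CuspForm (Gamma0 N) 2 => qCoeff ⇑v m) (hU ℓ hℓp hℓN)
      simp only [qCoeff_heckeULin hℓp, qCoeff_smul, ModularForm.coeffHeckeU_apply] at h1
      rw [hnm, h1, ih m hmlt, qCoeff_rel_bad hg hℓp hℓN m]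
      ring
    · -- good prime
      have h1 := congrArg (fun v : CuspForm (Gamma0 N) 2 => qCoeff ⇑v m) (hT ℓ hℓp hℓN)
      simp only [qCoeff_heckeTLin, qCoeff_smul, ModularForm.coeffHeckeT_apply] at h1
      have h3 : ((ℓ : ℂ)) ^ ((2 : ℤ) - 1) = (ℓ : ℂ) := by norm_num
      rw [h3] at h1
      have h2 := qCoeff_rel_good hg hℓp hℓN m
      have hdiv : qCoeff ⇑h (m / ℓ) = qCoeff ⇑h 1 * qCoeff ⇑g (m / ℓ) :=
        ih _ (lt_of_le_of_lt (Nat.div_le_self _ _) hmlt)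
      rw [hnm]
      by_cases hd : ℓ ∣ m
      · rw [if_pos hd] at h1 h2
        rw [hdiv, ih m hmlt] at h1
        linear_combination h1 - (qCoeff ⇑h 1) * h2
      · rw [if_neg hd, add_zero] at h1 h2
        rw [ih m hmlt] at h1
        linear_combination h1 - (qCoeff ⇑h 1) * h2

/-- **Multiplicity one**, bundled: `h = a₁(h) • g`. -/
theorem eq_smul_of_eigen [NeZero N] (hg : g.IsNormalizedEigenform)
    (h : CuspForm (Gamma0 N) 2)
    (hT : ∀ (ℓ : ℕ) (hℓ : ℓ.Prime) (hℓN : ¬ ℓ ∣ N),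
      CuspForm.heckeTLin 2 hℓ hℓN h = qCoeff ⇑g ℓ • h)
    (hU : ∀ (q : ℕ) (_ : q.Prime) (hqN : q ∣ N),
      CuspForm.heckeULin 2 hqN h = qCoeff ⇑g q • h) :
    h = qCoeff ⇑h 1 • g :=
  eq_of_qCoeff_eq _ _ fun n => by rw [qCoeff_smul, qCoeff_eq_of_eigen hg h hT hU n]

end Fermat.Agent.S29lib.P
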