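/-
S29lib / block P (helper5).  Eigenform algebra, part 2: the Hecke eigenvalues `a_ℓ` (all primes
`ℓ`) of a normalised eigenform are algebraic integers.  Input: S22 (the Hecke algebra is a
finitely generated `ℤ`-module).
-/
import Mathlib
import Fermat.Agent.S29lib.P.Eigen
import Fermat.Agent.S22

set_option autoImplicit false

noncomputable section

namespace Fermat.Agent.S29lib.P

open CuspForm ModularFormClass CongruenceSubgroup Fermat.Agent.Helper8 Polynomial

variable {N : ℕ} [NeZero N] {g : CuspForm (Gamma0 N) 2}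

/-- every element of the (full) Hecke algebra is integral over `ℤ`, as an endomorphism -/
theorem isIntegral_of_mem_heckeAlgebra {T : Module.End ℂ (CuspForm (Gamma0 N) 2)}
    (hT : T ∈ CuspForm.heckeAlgebra N 2 (∅ : Set ℕ)) : IsIntegral ℤ T := by
  have : Module.Finite ℤ (CuspForm.heckeAlgebra N 2 (∅ : Set ℕ)) :=
    Fermat.Agent.S22.result N 2 ∅
  have h1 : IsIntegral ℤ (⟨T, hT⟩ : CuspForm.heckeAlgebra N 2 (∅ : Set ℕ)) :=
    Algebra.IsIntegral.isIntegral _
  exact h1.map (CuspForm.heckeAlgebra N 2 (∅ : Set ℕ)).val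

/-- an eigenvalue (with a nonzero eigenvector) of an integral endomorphism is integral -/
theorem isIntegral_of_eigen {V : Type*} [AddCommGroup V] [Module ℂ V] {T : Module.End ℂ V}
    (hT : IsIntegral ℤ T) {v : V} (hv : v ≠ 0) {a : ℂ} (hTv : T v = a • v) : IsIntegral ℤ a := by
  obtain ⟨P, hmonic, hP⟩ := hT
  refine ⟨P, hmonic, ?_⟩
  have hev : Module.End.HasEigenvector T a v :=
    ⟨Module.End.mem_eigenspace_iff.mpr hTv, hv⟩
  have h1 := Module.End.aeval_apply_of_hasEigenvector (p := P.map (algebraMap ℤ ℂ)) hev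
  have h2 : aeval T (P.map (algebraMap ℤ ℂ)) = 0 := by
    rw [aeval_map_algebraMap]
    rw [← hP]
    rfl
  rw [h2, LinearMap.zero_apply] at h1
  have h3 : (P.map (algebraMap ℤ ℂ)).eval a = 0 := by
    rcases smul_eq_zero.mp h1.symm with h | h
    · exact h
    · exact absurd h hv
  rw [eval_map] at h3
  exact h3

/-- **The eigenvalue `a_ℓ` of a normalised eigenform is an algebraic integer** (every prime). -/
theorem isIntegral_qCoeff_prime (hg : g.IsNormalizedEigenform) {ℓ : ℕ} (hℓ : ℓ.Prime) :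
    IsIntegral ℤ (qCoeff ⇑g ℓ) := by
  have hg0 : g ≠ 0 := by
    intro h0
    have h1 := hg.qCoeff_one
    rw [h0, qCoeff_zero'] at h1
    exact zero_ne_one h1
  by_cases hℓN : ℓ ∣ N
  · exact isIntegral_of_eigen
      (isIntegral_of_mem_heckeAlgebra
        (heckeULin_mem_heckeAlgebra (S := (∅ : Set ℕ)) hℓ hℓN (Set.notMem_empty ℓ)))
      hg0 (heckeULin_eq_smul hg hℓ hℓN)
  · exact isIntegral_of_eigen
      (isIntegral_of_mem_heckeAlgebra
        (heckeTLin_mem_heckeAlgebra (S := (∅ : Set ℕ)) hℓ hℓN (Set.notMem_empty ℓ)))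
      hg0 (heckeTLin_eq_smul hg hℓ hℓN)

/-- the eigenvalue system of a normalised eigenform, with values in `ℤ̄ ⊂ ℂ` -/
def eigenvalue (hg : g.IsNormalizedEigenform) (ℓ : Nat.Primes) : integralClosure ℤ ℂ :=
  ⟨qCoeff ⇑g ℓ, isIntegral_qCoeff_prime hg ℓ.2⟩

@[simp] theorem coe_eigenvalue (hg : g.IsNormalizedEigenform) (ℓ : Nat.Primes) :
    ((eigenvalue hg ℓ : integralClosure ℤ ℂ) : ℂ) = qCoeff ⇑g ℓ := rfl

/-- the form asked for by `ResidualGaloisRep.IsAttachedTo` -/
theorem exists_integralClosure_eq_qCoeff (hg : g.IsNormalizedEigenform) {ℓ : ℕ} (hℓ : ℓ.Prime) :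
    ∃ a : integralClosure ℤ ℂ, (a : ℂ) = qCoeff ⇑g ℓ :=
  ⟨eigenvalue hg ⟨ℓ, hℓ⟩, rfl⟩

end Fermat.Agent.S29lib.P
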