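/-
S29lib / block P (helper5).  Eigenform algebra, part 3: the eigenspace of the full eigencharacter
of a normalised eigenform `g` in `S₂(Γ₀(N))` is the line `ℂ g`, and its transport through any
injective `ℂ`-linear map `Φ : S₂ × S₂ → M` which intertwines `(T, T)` with operators `Tc` on `M`
(e.g. the prelude's `periodHomPair N` and the combinatorial Hecke operators, LH) is
2-dimensional.
-/
import Mathlib
import Fermat.Agent.S29lib.P.Integral
import Fermat.Agent.S21

set_option autoImplicit false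

noncomputable section

namespace Fermat.Agent.S29lib.P

open CuspForm ModularFormClass CongruenceSubgroup Fermat.Agent.Helper8

variable {N : ℕ} [NeZero N] {g : CuspForm (Gamma0 N) 2}

/-- The prelude's Hecke operator at an arbitrary prime: `T_ℓ` (`heckeTLin 2`) for `ℓ ∤ N`,
`U_ℓ` (`heckeULin 2`) for `ℓ ∣ N`. -/
def heckeAll (ℓ : Nat.Primes) : Module.End ℂ (CuspForm (Gamma0 N) 2) :=
  if h : (ℓ : ℕ) ∣ N then CuspForm.heckeULin 2 h else CuspForm.heckeTLin 2 ℓ.2 h

theorem heckeAll_of_dvd {ℓ : Nat.Primes} (h : (ℓ : ℕ) ∣ N) :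
    heckeAll (N := N) ℓ = CuspForm.heckeULin 2 h := dif_pos h

theorem heckeAll_of_not_dvd {ℓ : Nat.Primes} (h : ¬ (ℓ : ℕ) ∣ N) :
    heckeAll (N := N) ℓ = CuspForm.heckeTLin 2 ℓ.2 h := dif_neg h

/-- a normalised eigenform is an eigenvector of every `heckeAll ℓ` -/
theorem heckeAll_eigen (hg : g.IsNormalizedEigenform) (ℓ : Nat.Primes) :
    heckeAll ℓ g = qCoeff ⇑g ℓ • g := by
  by_cases h : (ℓ : ℕ) ∣ N
  · rw [heckeAll_of_dvd h]; exact heckeULin_eq_smul hg ℓ.2 h
  · rw [heckeAll_of_not_dvd h]; exact heckeTLin_eq_smul hg ℓ.2 h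

omit [NeZero N] in
theorem ne_zero_of_isNormalizedEigenform (hg : g.IsNormalizedEigenform) : g ≠ 0 := by
  intro h0
  have h1 := hg.qCoeff_one
  rw [h0, qCoeff_zero'] at h1
  exact zero_ne_one h1

/-- **multiplicity one** for `heckeAll` -/
theorem eq_smul_of_heckeAll_eigen (hg : g.IsNormalizedEigenform) (h : CuspForm (Gamma0 N) 2)
    (H : ∀ ℓ : Nat.Primes, heckeAll ℓ h = qCoeff ⇑g ℓ • h) : h = qCoeff ⇑h 1 • g := by
  refine eq_smul_of_eigen hg h (fun ℓ hℓ hℓN => ?_) (fun q hq hqN => ?_)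
  · have := H ⟨ℓ, hℓ⟩
    rwa [heckeAll_of_not_dvd (ℓ := ⟨ℓ, hℓ⟩) hℓN] at this
  · have := H ⟨q, hq⟩
    rwa [heckeAll_of_dvd (ℓ := ⟨q, hq⟩) hqN] at this

/-- the simultaneous eigenspace of the `heckeAll ℓ` in `S₂(Γ₀(N))` -/
def eigenS (a : Nat.Primes → ℂ) : Submodule ℂ (CuspForm (Gamma0 N) 2) :=
  ⨅ ℓ : Nat.Primes, LinearMap.ker (heckeAll ℓ - a ℓ • (1 : Module.End ℂ (CuspForm (Gamma0 N) 2)))

theorem mem_iInf_ker_sub_smul {ι V : Type*} [AddCommGroup V] [Module ℂ V]
    (T : ι → Module.End ℂ V) (a : ι → ℂ) (v : V) :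
    v ∈ (⨅ i, LinearMap.ker (T i - a i • (1 : Module.End ℂ V))) ↔ ∀ i, T i v = a i • v := by
  simp only [Submodule.mem_iInf, LinearMap.mem_ker, LinearMap.sub_apply, LinearMap.smul_apply,
    Module.End.one_apply, sub_eq_zero]

theorem mem_eigenS_iff (a : Nat.Primes → ℂ) (h : CuspForm (Gamma0 N) 2) :
    h ∈ eigenS a ↔ ∀ ℓ, heckeAll ℓ h = a ℓ • h :=
  mem_iInf_ker_sub_smul _ _ _

/-- **The eigenspace of the full eigencharacter of `g` is the line `ℂ g`.** -/
theorem eigenS_eq_span (hg : g.IsNormalizedEigenform) :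
    eigenS (fun ℓ => qCoeff ⇑g ℓ) = Submodule.span ℂ {g} := by
  apply le_antisymm
  · intro h hh
    rw [mem_eigenS_iff] at hh
    rw [Submodule.mem_span_singleton]
    exact ⟨qCoeff ⇑h 1, (eq_smul_of_heckeAll_eigen hg h hh).symm⟩
  · rw [Submodule.span_singleton_le_iff_mem, mem_eigenS_iff]
    exact heckeAll_eigen hg

theorem finrank_eigenS (hg : g.IsNormalizedEigenform) :
    Module.finrank ℂ ↥(eigenS (N := N) (fun ℓ => qCoeff ⇑g ℓ)) = 1 := by
  rw [eigenS_eq_span hg]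
  exact finrank_span_singleton (ne_zero_of_isNormalizedEigenform hg)

/-! ### Transport through an equivariant injection -/

section Transport

variable {M : Type*} [AddCommGroup M] [Module ℂ M]
  (Φ : (CuspForm (Gamma0 N) 2 × CuspForm (Gamma0 N) 2) →ₗ[ℂ] M)
  (Tc : Nat.Primes → Module.End ℂ M)

/-- the parametrisation `(x, y) ↦ Φ (x g, y g)` of the eigenspace -/
def eigenParam (g : CuspForm (Gamma0 N) 2) : (ℂ × ℂ) →ₗ[ℂ] M :=
  Φ ∘ₗ (LinearMap.prodMap (LinearMap.toSpanSingleton ℂ _ g) (LinearMap.toSpanSingleton ℂ _ g))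

omit [NeZero N] in
theorem eigenParam_apply (g : CuspForm (Gamma0 N) 2) (c : ℂ × ℂ) :
    eigenParam Φ g c = Φ (c.1 • g, c.2 • g) := rfl

omit [NeZero N] in
theorem eigenParam_injective (hΦ : Function.Injective Φ) (hg0 : g ≠ 0) :
    Function.Injective (eigenParam Φ g) := by
  intro c d hcd
  rw [eigenParam_apply, eigenParam_apply] at hcd
  have h := hΦ hcd
  rw [Prod.mk.injEq] at h
  exact Prod.ext (smul_left_injective ℂ hg0 h.1) (smul_left_injective ℂ hg0 h.2)

/-- **The transported eigenspace** is the image of `ℂ g × ℂ g`. -/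
theorem range_inf_eigen_eq (hg : g.IsNormalizedEigenform) (hΦ : Function.Injective Φ)
    (hTc : ∀ (ℓ : Nat.Primes) (f h : CuspForm (Gamma0 N) 2),
      Tc ℓ (Φ (f, h)) = Φ (heckeAll ℓ f, heckeAll ℓ h)) :
    LinearMap.range Φ ⊓
        (⨅ ℓ : Nat.Primes, LinearMap.ker (Tc ℓ - qCoeff ⇑g ℓ • (1 : Module.End ℂ M))) =
      LinearMap.range (eigenParam Φ g) := by
  apply le_antisymm
  · rintro v ⟨⟨⟨f, h⟩, rfl⟩, hv⟩
    rw [SetLike.mem_coe, mem_iInf_ker_sub_smul] at hv
    have key : ∀ ℓ : Nat.Primes, heckeAll ℓ f = qCoeff ⇑g ℓ • f ∧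
        heckeAll ℓ h = qCoeff ⇑g ℓ • h := by
      intro ℓ
      have h1 := hv ℓ
      rw [hTc, ← map_smul, Prod.smul_mk] at h1
      have h2 := hΦ h1
      rw [Prod.mk.injEq] at h2
      exact h2
    have hf := eq_smul_of_heckeAll_eigen hg f fun ℓ => (key ℓ).1
    have hh := eq_smul_of_heckeAll_eigen hg h fun ℓ => (key ℓ).2
    refine ⟨(qCoeff ⇑f 1, qCoeff ⇑h 1), ?_⟩
    rw [eigenParam_apply]
    show Φ (qCoeff ⇑f 1 • g, qCoeff ⇑h 1 • g) = Φ (f, h)
    rw [← hf, ← hh]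
  · rintro v ⟨c, rfl⟩
    rw [eigenParam_apply]
    refine ⟨⟨_, rfl⟩, ?_⟩
    rw [SetLike.mem_coe, mem_iInf_ker_sub_smul]
    intro ℓ
    rw [hTc, map_smul, map_smul, heckeAll_eigen hg, ← map_smul Φ, Prod.smul_mk, smul_comm,
      smul_comm (qCoeff ⇑g ℓ) c.2]

/-- **The transported eigenspace is 2-dimensional.** -/
theorem finrank_range_inf_eigen (hg : g.IsNormalizedEigenform) (hΦ : Function.Injective Φ)
    (hTc : ∀ (ℓ : Nat.Primes) (f h : CuspForm (Gamma0 N) 2),
      Tc ℓ (Φ (f, h)) = Φ (heckeAll ℓ f, heckeAll ℓ h)) :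
    Module.finrank ℂ ↥(LinearMap.range Φ ⊓
        (⨅ ℓ : Nat.Primes, LinearMap.ker (Tc ℓ - qCoeff ⇑g ℓ • (1 : Module.End ℂ M)))) = 2 := by
  rw [range_inf_eigen_eq Φ Tc hg hΦ hTc,
    LinearMap.finrank_range_of_inj
      (eigenParam_injective Φ hΦ (ne_zero_of_isNormalizedEigenform hg)),
    Module.finrank_prod, Module.finrank_self]

/-- variant when `Φ` is surjective -/
theorem finrank_eigen_of_surjective (hg : g.IsNormalizedEigenform) (hΦ : Function.Injective Φ)
    (hΦs : LinearMap.range Φ = ⊤)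
    (hTc : ∀ (ℓ : Nat.Primes) (f h : CuspForm (Gamma0 N) 2),
      Tc ℓ (Φ (f, h)) = Φ (heckeAll ℓ f, heckeAll ℓ h)) :
    Module.finrank ℂ ↥(⨅ ℓ : Nat.Primes,
      LinearMap.ker (Tc ℓ - qCoeff ⇑g ℓ • (1 : Module.End ℂ M))) = 2 := by
  have h := finrank_range_inf_eigen Φ Tc hg hΦ hTc
  rwa [hΦs, top_inf_eq] at h

end Transport

/-! ### The case of the Eichler–Shimura map `periodHomPair N` -/

open ModularCurve ModularCurve.Period

/-- **Eigenspace in the parabolic cohomology.**  For ANY operators `Tc ℓ` on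
`Hom(Γ₀(N), ℂ)` that correspond to `(heckeAll ℓ, heckeAll ℓ)` under the prelude's Eichler–Shimura
map `periodHomPair N` (for the combinatorial Hecke operators this is LH's
`periodHomPair_heckeT` / `periodHomPair_heckeU`), the simultaneous eigenspace inside the parabolic
homs for the eigenvalues of a normalised eigenform is 2-dimensional. -/
theorem finrank_parabolicHoms_eigen (hg : g.IsNormalizedEigenform)
    (Tc : Nat.Primes → Module.End ℂ (Additive (Gamma0 N) →+ ℂ))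
    (hTc : ∀ (ℓ : Nat.Primes) (f h : CuspForm (Gamma0 N) 2),
      Tc ℓ (periodHomPair N (f, h)) = periodHomPair N (heckeAll ℓ f, heckeAll ℓ h)) :
    Module.finrank ℂ ↥(parabolicHoms ℂ (Gamma0 N) ℂ ⊓
        (⨅ ℓ : Nat.Primes, LinearMap.ker
          (Tc ℓ - qCoeff ⇑g ℓ • (1 : Module.End ℂ (Additive (Gamma0 N) →+ ℂ))))) = 2 := by
  obtain ⟨hinj, hrange⟩ := Fermat.Agent.S21.result N
  rw [← hrange]
  exact finrank_range_inf_eigen (periodHomPair N) Tc hg hinj hTc

/-- conjugation by a linear equivalence does not change the dimension of a simultaneous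
eigenspace (to pass from operators to matrices in a basis) -/
theorem finrank_iInf_ker_conj {ι V W : Type*} [AddCommGroup V] [Module ℂ V] [AddCommGroup W]
    [Module ℂ W] (e : V ≃ₗ[ℂ] W) (A : ι → Module.End ℂ V) (B : ι → Module.End ℂ W) (a : ι → ℂ)
    (hAB : ∀ i v, e (A i v) = B i (e v)) :
    Module.finrank ℂ ↥(⨅ i, LinearMap.ker (A i - a i • (1 : Module.End ℂ V))) =
      Module.finrank ℂ ↥(⨅ i, LinearMap.ker (B i - a i • (1 : Module.End ℂ W))) := by
  have hmap : Submodule.map (e : V →ₗ[ℂ] W)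
      (⨅ i, LinearMap.ker (A i - a i • (1 : Module.End ℂ V))) =
        ⨅ i, LinearMap.ker (B i - a i • (1 : Module.End ℂ W)) := by
    ext w
    rw [mem_iInf_ker_sub_smul, Submodule.mem_map]
    constructor
    · rintro ⟨v, hv, rfl⟩ i
      rw [mem_iInf_ker_sub_smul] at hv
      show B i (e v) = a i • e v
      rw [← hAB, hv i, map_smul]
    · intro hw
      refine ⟨e.symm w, ?_, by simp⟩
      rw [mem_iInf_ker_sub_smul]
      intro i
      apply e.injective
      rw [hAB, e.apply_symm_apply, hw i, map_smul, e.apply_symm_apply]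
  rw [← hmap]
  exact (LinearEquiv.finrank_map_eq e _).symm

end Fermat.Agent.S29lib.P
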