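/-
S29lib / block P (helper5).  Eigenform algebra, part 4: the eigencharacter
`θ_g : 𝕋 → ℤ̄` of a normalised eigenform on the full Hecke algebra `𝕋 = heckeAlgebra N 2 ∅`, and
the finiteness of its image: the eigenvalues `a_ℓ` (all primes) lie in a subring of `ℤ̄` which is a
finitely generated `ℤ`-module; the field `ℚ(a_ℓ : ℓ)` is a number field.
-/
import Mathlib
import Fermat.Agent.S29lib.P.Transport

set_option autoImplicit false

noncomputable section

namespace Fermat.Agent.S29lib.P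

open CuspForm ModularFormClass CongruenceSubgroup Fermat.Agent.Helper8

variable {N : ℕ} [NeZero N] {g : CuspForm (Gamma0 N) 2}

/-- `ℤ̄` -/
local notation "Zb" => integralClosure ℤ ℂ
/-- the full Hecke algebra -/
local notation "𝕋" => CuspForm.heckeAlgebra N 2 (∅ : Set ℕ)

/-- a normalised eigenform is an eigenvector of every element of the Hecke algebra -/
theorem exists_eigenvalue_of_mem_heckeAlgebra (hg : g.IsNormalizedEigenform)
    {T : Module.End ℂ (CuspForm (Gamma0 N) 2)} (hT : T ∈ 𝕋) : ∃ c : ℂ, T g = c • g := by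
  induction hT using Algebra.adjoin_induction with
  | mem T hT =>
    rcases hT with ⟨ℓ, hℓ, hℓN, -, rfl⟩ | ⟨q, hqN, hq, -, rfl⟩
    · exact ⟨_, heckeTLin_eq_smul hg hℓ hℓN⟩
    · exact ⟨_, heckeULin_eq_smul hg hq hqN⟩
  | algebraMap z =>
    refine ⟨(z : ℂ), ?_⟩
    rw [Algebra.algebraMap_eq_smul_one, LinearMap.smul_apply, Module.End.one_apply]
    exact (Int.cast_smul_eq_zsmul ℂ z g).symm
  | add T T' _ _ hT hT' =>
    obtain ⟨c, hc⟩ := hT
    obtain ⟨c', hc'⟩ := hT'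
    exact ⟨c + c', by rw [LinearMap.add_apply, hc, hc', add_smul]⟩
  | mul T T' _ _ hT hT' =>
    obtain ⟨c, hc⟩ := hT
    obtain ⟨c', hc'⟩ := hT'
    exact ⟨c' * c, by rw [Module.End.mul_apply, hc', map_smul, hc, smul_smul]⟩

/-- the eigenvalue of `T ∈ 𝕋` on `g` is the first `q`-coefficient of `T g` -/
theorem apply_eq_qCoeff_one_smul (hg : g.IsNormalizedEigenform)
    {T : Module.End ℂ (CuspForm (Gamma0 N) 2)} (hT : T ∈ 𝕋) : T g = qCoeff ⇑(T g) 1 • g := by
  obtain ⟨c, hc⟩ := exists_eigenvalue_of_mem_heckeAlgebra hg hT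
  rw [hc, qCoeff_smul, hg.qCoeff_one, mul_one]

/-- the eigenvalue of `T` on `g` is an algebraic integer -/
theorem isIntegral_qCoeff_one_apply (hg : g.IsNormalizedEigenform)
    {T : Module.End ℂ (CuspForm (Gamma0 N) 2)} (hT : T ∈ 𝕋) : IsIntegral ℤ (qCoeff ⇑(T g) 1) :=
  isIntegral_of_eigen (isIntegral_of_mem_heckeAlgebra hT) (ne_zero_of_isNormalizedEigenform hg)
    (apply_eq_qCoeff_one_smul hg hT)

/-- **The eigencharacter** `θ_g : 𝕋 → ℤ̄` of a normalised eigenform. -/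
def eigenChar (hg : g.IsNormalizedEigenform) : 𝕋 →+* Zb where
  toFun T := ⟨qCoeff ⇑((T : Module.End ℂ (CuspForm (Gamma0 N) 2)) g) 1,
    isIntegral_qCoeff_one_apply hg T.2⟩
  map_one' := by
    apply Subtype.ext
    show qCoeff ⇑(((1 : 𝕋) : Module.End ℂ (CuspForm (Gamma0 N) 2)) g) 1 = 1
    rw [OneMemClass.coe_one, Module.End.one_apply, hg.qCoeff_one]
  map_mul' T T' := by
    apply Subtype.ext
    show qCoeff ⇑(((T * T' : 𝕋) : Module.End ℂ (CuspForm (Gamma0 N) 2)) g) 1 =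
      qCoeff ⇑((T : Module.End ℂ (CuspForm (Gamma0 N) 2)) g) 1 *
        qCoeff ⇑((T' : Module.End ℂ (CuspForm (Gamma0 N) 2)) g) 1
    rw [MulMemClass.coe_mul, Module.End.mul_apply, apply_eq_qCoeff_one_smul hg T'.2, map_smul,
      qCoeff_smul, qCoeff_smul, hg.qCoeff_one, mul_one, mul_comm]
  map_zero' := by
    apply Subtype.ext
    show qCoeff ⇑(((0 : 𝕋) : Module.End ℂ (CuspForm (Gamma0 N) 2)) g) 1 = 0
    rw [ZeroMemClass.coe_zero, LinearMap.zero_apply, qCoeff_zero']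
  map_add' T T' := by
    apply Subtype.ext
    show qCoeff ⇑(((T + T' : 𝕋) : Module.End ℂ (CuspForm (Gamma0 N) 2)) g) 1 =
      qCoeff ⇑((T : Module.End ℂ (CuspForm (Gamma0 N) 2)) g) 1 +
        qCoeff ⇑((T' : Module.End ℂ (CuspForm (Gamma0 N) 2)) g) 1
    rw [AddMemClass.coe_add, LinearMap.add_apply, qCoeff_add]

theorem coe_eigenChar (hg : g.IsNormalizedEigenform) (T : 𝕋) :
    ((eigenChar hg T : Zb) : ℂ) =
      qCoeff ⇑((T : Module.End ℂ (CuspForm (Gamma0 N) 2)) g) 1 := rfl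

/-- `T g = θ_g(T) g` -/
theorem apply_eq_eigenChar_smul (hg : g.IsNormalizedEigenform) (T : 𝕋) :
    (T : Module.End ℂ (CuspForm (Gamma0 N) 2)) g = ((eigenChar hg T : Zb) : ℂ) • g :=
  apply_eq_qCoeff_one_smul hg T.2

/-- the Hecke operator at an arbitrary prime, as an element of the full Hecke algebra -/
def heckeAllT (ℓ : Nat.Primes) : 𝕋 :=
  if h : (ℓ : ℕ) ∣ N then CuspForm.heckeAlgebra.U ℓ.2 h (Set.notMem_empty _)
  else CuspForm.heckeAlgebra.T ℓ.2 h (Set.notMem_empty _)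

theorem coe_heckeAllT (ℓ : Nat.Primes) :
    ((heckeAllT (N := N) ℓ : 𝕋) : Module.End ℂ (CuspForm (Gamma0 N) 2)) = heckeAll ℓ := by
  unfold heckeAllT heckeAll
  split_ifs <;> rfl

/-- `θ_g(T_ℓ) = a_ℓ` (all primes) -/
theorem eigenChar_heckeAllT (hg : g.IsNormalizedEigenform) (ℓ : Nat.Primes) :
    eigenChar hg (heckeAllT ℓ) = eigenvalue hg ℓ := by
  apply Subtype.ext
  rw [coe_eigenChar, coe_heckeAllT, heckeAll_eigen hg, qCoeff_smul, hg.qCoeff_one, mul_one]
  rfl

/-- **the coefficient ring** `ℤ[a_ℓ] = θ_g(𝕋) ⊂ ℤ̄` -/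
def coeffRing (hg : g.IsNormalizedEigenform) : Subring Zb := (eigenChar hg).range

theorem eigenvalue_mem_coeffRing (hg : g.IsNormalizedEigenform) (ℓ : Nat.Primes) :
    eigenvalue hg ℓ ∈ coeffRing hg :=
  ⟨heckeAllT ℓ, eigenChar_heckeAllT hg ℓ⟩

/-- **the coefficient ring is a finitely generated `ℤ`-module** (S22) -/
theorem coeffRing_fg (hg : g.IsNormalizedEigenform) :
    ((coeffRing hg).toAddSubgroup.toIntSubmodule : Submodule ℤ Zb).FG := by
  have hfin : Module.Finite ℤ 𝕋 := Fermat.Agent.S22.result N 2 ∅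
  have h1 : (coeffRing hg).toAddSubgroup.toIntSubmodule =
      LinearMap.range (eigenChar hg).toAddMonoidHom.toIntLinearMap := by
    ext x
    rfl
  rw [h1, LinearMap.range_eq_map]
  exact Submodule.FG.map _ hfin.fg_top

instance (hg : g.IsNormalizedEigenform) : Module.Finite ℤ (coeffRing hg) := by
  have h := coeffRing_fg hg
  exact Module.Finite.iff_fg.mpr h

end Fermat.Agent.S29lib.P
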