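/-
S29lib / block P (helper5) + block H (helper1): the `EigenInput` of the interface for any
`ComparisonData` whose lattice operators are helper1's `H.tMat b` (matrices of the combinatorial
Hecke operators on `V_ℤ` in a basis `b`).
-/
import Mathlib
import Fermat.Agent.S29lib.H.Eigen
import Fermat.Agent.S29lib.P.Character
import Fermat.Agent.S29lib.Interface.Basic

set_option autoImplicit false

noncomputable section

namespace Fermat.Agent.S29lib.P

open CuspForm ModularFormClass CongruenceSubgroup Module
open Fermat.Agent.S16lib.LG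

variable {N : ℕ} [NeZero N] {g : CuspForm (Gamma0 N) 2}

/-- helper1's `heckeS2` and `heckeAll` are the same operator -/
theorem heckeS2_eq_heckeAll (ℓ : Nat.Primes) : H.heckeS2 N ℓ = heckeAll ℓ := by
  by_cases h : (ℓ : ℕ) ∣ N
  · rw [H.heckeS2_of_dvd N h, heckeAll_of_dvd h]
  · rw [H.heckeS2_of_not_dvd N h, heckeAll_of_not_dvd h]

/-- **multiplicity one in helper1's form** -/
theorem finrank_eigenInf_heckeS2 (hg : g.IsNormalizedEigenform) :
    finrank ℂ ↥(H.eigenInf (H.heckeS2 N) (fun ℓ : Nat.Primes => qCoeff ⇑g ℓ)) = 1 := by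
  have h : H.eigenInf (H.heckeS2 N) (fun ℓ : Nat.Primes => qCoeff ⇑g ℓ) =
      eigenS (fun ℓ : Nat.Primes => qCoeff ⇑g ℓ) := by
    ext x
    rw [H.mem_eigenInf, mem_eigenS_iff]
    simp only [heckeS2_eq_heckeAll]
  rw [h]
  exact finrank_eigenS hg

/-- **The `EigenInput` of the interface**, for comparison data whose lattice operators are the
matrices `H.tMat b` of the combinatorial Hecke operators in a basis `b` of `V_ℤ`. -/
def eigenInputOf {p : ℕ} (C : ComparisonData N p)
    (b : Basis (Fin C.r) ℤ ↥(VZ (Gamma0 N))) (hC : C.t = H.tMat b)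
    (hg : g.IsNormalizedEigenform) : EigenInput C g where
  a := eigenvalue hg
  a_eq := fun _ => rfl
  finrank_eigen := by
    rw [hC]
    exact H.finrank_eigen_coord N b (fun ℓ : Nat.Primes => qCoeff ⇑g ℓ)
      (finrank_eigenInf_heckeS2 hg)

end Fermat.Agent.S29lib.P
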