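/-
S29lib / block P (helper5), for S42: the mod-`p` Galois representation of the Frey curve factors
through a finite level (`Hfrey` of `Z/S42Core.lean`).  Inputs: S13lib (finiteness of the
`p`-torsion of the Frey curve, open stabilisers of `ℚ̄`-points) and the description of the
neighbourhoods of `1` in the Krull topology.
-/
import Mathlib
import Fermat.Agent.S13lib.TorsionPrime
import Fermat.Agent.S13lib.PlaceOpen
import Fermat.Prelude.Def_GaloisRep_Residual

set_option autoImplicit false

noncomputable section

namespace Fermat.Agent.S29lib.P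

open WeierstrassCurve WeierstrassCurve.Affine WeierstrassCurve.Affine.Point Fermat.Agent.S13lib
open scoped Topology

/-- **The mod-`p` representation of the Frey curve factors through a finite level.** -/
theorem frey_factorsThroughFiniteLevel (P : FreyPackage) :
    GaloisFactorsThroughFiniteLevel
      (galoisRepModuleEnd (S := ℚ) (K := AlgebraicClosure ℚ) P.freyCurve P.p) := by
  obtain ⟨-, hfin, -⟩ := frey_torsion_facts P
  have hopen := isOpen_setOf_forall_smul_eq (P.freyCurve : Affine ℚ) P.p
  have h1 : {σ : GQ | ∀ x : Submodule.torsionBy ℤ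
      ((P.freyCurve : Affine ℚ)⁄Qbar).Point P.p, σ • x = x} ∈ 𝓝 (1 : GQ) :=
    hopen.mem_nhds (by intro x; exact one_smul _ _)
  rw [krullTopology_mem_nhds_one_iff] at h1
  obtain ⟨E, hE, hsub⟩ := h1
  refine ⟨E, hE, fun σ hσ => ?_⟩
  have hmem : σ ∈ E.fixingSubgroup := by
    rw [IntermediateField.mem_fixingSubgroup_iff]
    exact hσ
  refine LinearMap.ext fun x => ?_
  exact hsub hmem x

/-- the name/type expected by `Z` (lead): `Hfrey` of `S42_of_core`. -/
theorem freyFiniteLevel : ∀ P : FreyPackage, GaloisFactorsThroughFiniteLevel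
    (galoisRepModuleEnd (S := ℚ) (K := AlgebraicClosure ℚ) P.freyCurve P.p) :=
  frey_factorsThroughFiniteLevel

end Fermat.Agent.S29lib.P
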